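import Fermat.Agent.LD1.CoreJ
import Fermat.Agent.LD6.MainAll
import Fermat.Agent.LD6.DegAll
import Fermat.Agent.LU2.Node
import Fermat.Agent.LU2.Six
import Fermat.Agent.LU1.Final
import Fermat.Agent.LA3b.HypA
import Fermat.Agent.SM3.HypW

/-!
# The core theorem for all data
-/

set_option autoImplicit false
set_option linter.unusedSectionVars false
set_option maxHeartbeats 1000000

noncomputable section

open AlgebraicCurve Module IntermediateField ModularCurve HahnSeries

attribute [-instance] Fermat.Agent.X0Places.ffField Fermat.Agent.X0Places.ffAlgebra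

namespace Fermat.Agent.LD1

open Fermat.Agent.BadRed Fermat.Agent.LLp Fermat.Agent.LLu Fermat.Agent.LLc Fermat.Agent.LLv
open Fermat.Agent.Degen Fermat.Agent.TorsCmp
open Fermat.Agent.FunField Fermat.Agent.FunField.PlaceLemmas Fermat.Agent.Deuring
open Fermat.Agent.Igusa Fermat.Agent.AtkinLehner Fermat.Agent.HeckeRed
open Fermat.Agent.MzCusp (uL uL_ne_zero)
open Fermat.Agent.LU1 (vL)
open Fermat.Agent.LU2 (IsV)
open Fermat.Agent.LD8 (HypA HypW)

local notation "Qb" => AlgebraicClosure ℚ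
local notation "GQ" => (AlgebraicClosure ℚ ≃ₐ[ℚ] AlgebraicClosure ℚ)

/-- the remaining input: the totally wild places of `X₀(4N) → X₀(N)` in characteristic three lie
over `j = 0` -/
def A1All : Prop := ∀ {κ : Type} [Field κ] [IsAlgClosed κ] [CharP κ 3] {N : ℕ} [NeZero N]
  (_ : ¬ 2 ∣ N) (_ : ¬ 3 ∣ N), LA3b.HypA1 κ N

theorem coreAll_of (hA1 : A1All) : LD6.CoreAll := by
  intro N p _ _ _ hp hpN hp2 A hA _ δ hδ
  have i1 : NeZero p := ⟨hp.out.ne_zero⟩
  have i4 : NeZero (N * 4) := ⟨mul_ne_zero (NeZero.ne N) (by norm_num)⟩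
  have i4p : NeZero (4 * p) := ⟨mul_ne_zero (by norm_num) hp.out.ne_zero⟩
  have i3 : CharP (IsLocalRing.ResidueField A) p := charP_residueField hp.out hA
  obtain ⟨Φ, hΦ⟩ := Frob.exists_isFrobeniusAt hp.out hA
  have hpN4 : ¬ p ∣ N * 4 := by
    rw [hp.out.dvd_mul]
    rintro (h | h)
    · exact hpN h
    · have h2 : p ∣ 2 ^ 2 := h
      exact hp2 ((Nat.prime_dvd_prime_iff_eq hp.out Nat.prime_two).mp (hp.out.dvd_of_dvd_pow h2))
  have hN40 : ((N * 4 : ℕ) : IsLocalRing.ResidueField A) ≠ 0 := by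
    rw [Ne, CharP.cast_eq_zero_iff _ p]
    exact hpN4
  have hg := Cusps.genusFF_residue A (N * 4) hN40
  have hv : IsV Qb p (vL Qb p) := LU1.isV iotaQbar p
  obtain ⟨vb, b₂, hvb, U⟩ := LU2.exists_unitDat A (IsLocalRing.residue A)
    IsLocalRing.residue_surjective (archA hp.out hA) (N * 4) p hpN4 hg
    (ZLoc2.decAut hΦ.mem_decompositionSubgroup) (fun a => hΦ.smul_residue_eq a) iotaQbar hp2
    (Dvd.intro_left N rfl) hv
  intro ζ hζ J₀ β H hex ce cx hpe hpx ε hε hwe hwx hαe hαx hse hsx hJ hind S hpS hS a hT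
  refine core_J₂ A (IsLocalRing.residue A)
    IsLocalRing.residue_surjective (archA hp.out hA) N p hpN hpN4 hg
    (ZLoc2.decAut hΦ.mem_decompositionSubgroup) (fun a => hΦ.smul_residue_eq a) hp2 hA U
    (alpha1 _ N 4) (coe_alpha1 _ N 4) ?_ (fun v hv => LU2.ord_cases U hA v hv) ?_ ?_ ?_ rfl δ hδ hζ H hex hpe hpx
    hε hwe hwx hαe hαx hse hsx hJ hind S hpS hS a hT
  · intro ub hub v hv
    exact LU2.ord_six (A := A) (π := IsLocalRing.residue A) iotaQbar
      IsLocalRing.residue_surjective hN40 (alpha1 _ N 4 ub) vb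
      ((coe_alpha1 _ N 4 ub).trans hub) hvb v hv
  · exact LD6.finrankAlong_four_or rfl hN40 rfl rfl (alpha1 _ N 4) (coe_alpha1 _ N 4)
  · rintro rfl h6
    exact LA3b.hypA_of A (IsLocalRing.residue A) IsLocalRing.residue_surjective
      (archA hp.out hA) N hpN hg (ZLoc2.decAut hΦ.mem_decompositionSubgroup)
      (fun a => hΦ.smul_residue_eq a) iotaQbar hA
      (hA1 (LD6.not_two_dvd_of_eq_six rfl hN40 rfl rfl (alpha1 _ N 4) (coe_alpha1 _ N 4) h6) hpN)
  · rintro rfl
    exact SM3.hypW A (IsLocalRing.residue A) IsLocalRing.residue_surjective N hpN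

/-- the Jacobian form of level lowering, for every odd prime -/
theorem mainJ2_of (hA1 : A1All) : LF3.MainJ2 :=
  LD6.mainJ2_of (coreAll_of hA1) LD6.degAll

end Fermat.Agent.LD1
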