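import Fermat.Agent.LK3.Core
import Fermat.Agent.LP3.Pull

/-!
# The core theorem at level `4 N p` for classes of level `N p`
-/

set_option autoImplicit false
set_option linter.unusedSectionVars false
set_option maxHeartbeats 1000000

noncomputable section

open AlgebraicCurve Module IntermediateField ModularCurve HahnSeries

attribute [-instance] Fermat.Agent.X0Places.ffField Fermat.Agent.X0Places.ffAlgebra

namespace Fermat.Agent.LD1

open Fermat.Agent.BadRed Fermat.Agent.LLp Fermat.Agent.LLu Fermat.Agent.LLc Fermat.Agent.LLv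
open Fermat.Agent.Degen
open Fermat.Agent.FunField Fermat.Agent.FunField.PlaceLemmas Fermat.Agent.Deuring
open Fermat.Agent.Igusa Fermat.Agent.AtkinLehner Fermat.Agent.HeckeRed
open Fermat.Agent.ZLoc2 (IsCoef IsAL)
open Fermat.Agent.LK3 (UnitDat)

local notation "Qb" => AlgebraicClosure ℚ
local notation "GQ" => (AlgebraicClosure ℚ ≃ₐ[ℚ] AlgebraicClosure ℚ)

section Pull

variable {L F F' : Type*} [Field L] [Field F] [Field F'] [Algebra L F] [Algebra L F'] [IsFF L F]
  [IsFF L F'] [IsAlgClosed L] [CharZero L] (δ : F →ₐ[L] F')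

theorem isDiv_pull {D : Divisor L F} {f : F} (h : IsDiv D f) : IsDiv (pull δ D) (δ f) := by
  rw [isDiv_iff] at h ⊢
  obtain ⟨h1, h2⟩ := h
  refine ⟨by rwa [Ne, map_eq_zero], ?_⟩
  rw [h2, pull_divOf]

theorem lin_pull {D E : Divisor L F} (h : Lin D E) : Lin (pull δ D) (pull δ E) := by
  obtain ⟨f, hf⟩ := h
  refine ⟨δ f, ?_⟩
  rw [← map_sub]
  exact isDiv_pull δ hf

theorem sg_pull {D E : Divisor L F} (h : Sg D E) : Sg (pull δ D) (pull δ E) := by
  rcases h with h | h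
  · exact Or.inl (lin_pull δ h)
  · refine Or.inr ?_
    rw [← map_neg]
    exact lin_pull δ h

/-- functions with the same divisor -/
theorem isDiv_eq_const {D : Divisor L F} {f g : F} (hf : IsDiv D f) (hg : IsDiv D g) :
    ∃ c : L, c ≠ 0 ∧ g = algebraMap L F c * f := by
  rw [isDiv_iff] at hf hg
  obtain ⟨c, hc, h⟩ := exists_const_of_divOf_eq hg.1 hf.1 (hg.2.symm.trans hf.2)
  exact ⟨c, hc, h⟩

end Pull

variable {κ : Type*} [Field κ] [IsAlgClosed κ]
  (A : ValuationSubring Qb) (π : A →+* κ) [IsLocalHom π] (hπ : Function.Surjective π)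
  (harch : ArchA π)
  (N p : ℕ) [hp : Fact p.Prime] [hN : NeZero N] [CharP κ p] (hpN : ¬ p ∣ N) (hpN4 : ¬ p ∣ N * 4)
  (hg : genusFF κ (modularFunctionFieldFullC κ (N * 4)) =
    genusFF Qb (modularFunctionFieldFullC Qb (N * 4)))
  (d : CP.DecAut A π) (hd : CP.IsFrob d p)

include hπ harch hpN in
/-- residues of functions of level `N p` are of level `N` -/
theorem exists_res {f : modularFunctionFieldFullC Qb (N * p)}
    (hf : (f : LaurentSeries Qb) ∈ gaussRing A π) :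
    ∃ fb : modularFunctionFieldFullC κ N, (fb : LaurentSeries κ) = gaussRes A π ⟨_, hf⟩ := by
  have i0 : NeZero (N * p) := ⟨mul_ne_zero (NeZero.ne N) hp.out.ne_zero⟩
  have h1 : f ∈ (VV₁ A π hπ harch N p hpN).O := hf
  exact ⟨(VV₁ A π hπ harch N p hpN).r ⟨f, h1⟩, rfl⟩

include hπ harch hpN hg hd in
/-- **The main theorem on classes**, with a unit at level `4 N p`. -/
theorem core_E₂ (hp2 : p ≠ 2) {ζ : A} (hζ : IsPrimitiveRoot (ζ : Qb) p)
    (hA : A.LiesOverPrime p)
    {J₀ : Subgroup GQ} {β : Qb} (K : KHyp A p J₀ (A.valuation ((ζ : Qb) - 1)) β)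
    {E₀ E E₄ : IntermediateField Qb (LaurentSeries Qb)} [IsFF Qb E₀] [IsFF Qb E] [IsFF Qb E₄]
    (hE₀ : E₀ = modularFunctionFieldFullC Qb N) (hE : E = modularFunctionFieldFullC Qb (N * p))
    (hE₄ : E₄ = modularFunctionFieldFullC Qb (N * 4 * p))
    (δ : E →ₐ[Qb] E₄) (hδ : ∀ x, (δ x : LaurentSeries Qb) = x)
    (α : E₀ →ₐ[Qb] E) (hα : ∀ x, (α x : LaurentSeries Qb) = x) (w : E ≃ₐ[Qb] E) (hw : IsAL N p w)
    (gal : GQ → SemilinearAut Qb E) (hgal : ∀ σ, IsCoef (gal σ) (σ : Qb →+* Qb))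
    {P : Place Qb E} (hP : ∀ σ, gal σ • P = P)
    {ce cx : Pic0 Qb E} (hpe : p • ce = 0) (hpx : p • cx = 0) {ε : ℤ} (hε : ε = 1 ∨ ε = -1)
    (hwe : SemilinearAut.ofAlgAut w • ce = ε • ce) (hwx : SemilinearAut.ofAlgAut w • cx = ε • cx)
    (hαe : pushPic α (SemilinearAut.ofAlgAut w • ce) = 0)
    (hαx : pushPic α (SemilinearAut.ofAlgAut w • cx) = 0)
    (hse : ∀ s ∈ A.inertiaSubgroupIn ℚ, ∀ k : ℕ, s (ζ : Qb) = (ζ : Qb) ^ k → gal s • ce = k • ce)
    (hsx : ∀ s ∈ A.inertiaSubgroupIn ℚ, ∃ b : ℕ, gal s • cx = cx + b • ce)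
    (hJ : ∀ s ∈ J₀, gal s • cx = cx)
    (hind : ∀ a b : ℤ, a • pullPic δ cx = b • pullPic δ ce → (p : ℤ) ∣ a)
    {v0 : modularFunctionFieldFullC Qb (N * 4 * p)} {vb b₂ : modularFunctionFieldFullC κ (N * 4)}
    {s : ℕ} (U : UnitDat A π hπ harch (N * 4) p hpN4 hg d hd v0 vb b₂ s)
    (φ : modularFunctionFieldFullC κ N →ₐ[κ] modularFunctionFieldFullC κ (N * 4))
    (hφ : ∀ x, (φ x : LaurentSeries κ) = x) :
    ∃ D : Divisor.degZero (K := Qb) (F := E), Pic0.mk D = cx ∧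
      ∃ (f : E) (hf : (f : LaurentSeries Qb) ∈ gaussRing A π),
        (divOf f : Divisor Qb E) = (p : ℤ) • (D : Divisor Qb E) ∧
      ∃ fb : modularFunctionFieldFullC κ N, fb ≠ 0 ∧
        (fb : LaurentSeries κ) = gaussRes A π ⟨f, hf⟩ ∧
      (∀ (c : κ) (b : modularFunctionFieldFullC κ N), fb ≠ c • b ^ p) ∧
      ∃ j₀ : ℤ, (∀ v : Place κ (modularFunctionFieldFullC κ (N * 4)),
          0 ≤ v.ord (HeckeRed.jF κ (N * 4)) → (p : ℤ) ∣ v.ord (φ fb) - j₀ * v.ord vb) ∧
        ∀ v : Place κ (modularFunctionFieldFullC κ (N * 4)), v.ord (HeckeRed.jF κ (N * 4)) < 0 →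
          (p : ℤ) ∣ v.ord (φ fb) := by
  subst hE₀ hE hE₄
  have i0 : NeZero (N * p) := ⟨mul_ne_zero (NeZero.ne N) hp.out.ne_zero⟩
  have i4 : NeZero (N * 4) := ⟨mul_ne_zero (NeZero.ne N) (by norm_num)⟩
  have i4p : NeZero (N * 4 * p) := ⟨mul_ne_zero (NeZero.ne _) hp.out.ne_zero⟩
  have h1 : α = alpha1 Qb N p := AlgHom.ext fun x => Subtype.ext (by rw [hα, coe_alpha1])
  have h2 := ZLoc2.ww_eq N p hpN hw
  subst h1 h2
  -- compatibilities
  have hPa : ∀ D : Divisor Qb (modularFunctionFieldFullC Qb (N * p)),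
      SemilinearAut.ofAlgAut (ww Qb (N * 4) p hpN4) • pull δ D =
        pull δ (SemilinearAut.ofAlgAut (ww Qb N p hpN) • D) :=
    LP3.ww_smul_pull N (N * 4) p hpN hpN4 (Dvd.intro _ rfl) δ hδ
  have hPb : ∀ D : Divisor Qb (modularFunctionFieldFullC Qb (N * p)),
      Degen.push (alpha1 Qb (N * 4) p) (pull δ D) =
        pull (alpha1 Qb N 4) (Degen.push (alpha1 Qb N p) D) :=
    LP3.push_alpha1_pull N (N * 4) p hpN4 (Dvd.intro _ rfl) δ hδ (alpha1 Qb N 4)
      (coe_alpha1 Qb N 4)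
  have hPc : ∀ (s : GQ) (g' : SemilinearAut Qb (modularFunctionFieldFullC Qb (N * 4 * p))),
      IsCoef g' (s : Qb →+* Qb) → ∃ g : SemilinearAut Qb (modularFunctionFieldFullC Qb (N * p)),
        IsCoef g (s : Qb →+* Qb) ∧ ∀ D : Divisor Qb (modularFunctionFieldFullC Qb (N * p)),
          g' • pull δ D = pull δ (g • D) :=
    fun s g' hg' => LP3.exists_smul_pull rfl δ hδ s hg'
  obtain ⟨De, rfl⟩ := Pic0.mk_surjective ce
  obtain ⟨Dx, rfl⟩ := Pic0.mk_surjective cx
  -- uniqueness of the coefficientwise automorphism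
  have huniq : ∀ (s : GQ) (g : SemilinearAut Qb (modularFunctionFieldFullC Qb (N * p))),
      IsCoef g (s : Qb →+* Qb) → g = gal s := by
    intro s g hg'
    have h3 : ∀ x : modularFunctionFieldFullC Qb (N * p), g • x = gal s • x := fun x =>
      Subtype.ext ((hg' x).trans (hgal s x).symm)
    refine Subtype.ext (Prod.ext (RingEquiv.ext h3) (RingEquiv.ext fun a => ?_))
    have h4 := h3 (algebraMap Qb _ a)
    rw [SemilinearAut.smul_algebraMap, SemilinearAut.smul_algebraMap] at h4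
    exact (algebraMap Qb (modularFunctionFieldFullC Qb (N * p))).injective h4
  have hPc' : ∀ (s : GQ) (g' : SemilinearAut Qb (modularFunctionFieldFullC Qb (N * 4 * p))),
      IsCoef g' (s : Qb →+* Qb) → ∀ D : Divisor Qb (modularFunctionFieldFullC Qb (N * p)),
          g' • pull δ D = pull δ (gal s • D) := by
    intro s g' hg' D
    obtain ⟨g, h3, h4⟩ := hPc s g' hg'
    rw [h4, huniq s g h3]
  -- a fixed representative
  obtain ⟨D, hD, hDJ⟩ := exists_fixed_rep (J := gal '' (J₀ : Set GQ)) (P := P)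
    (by rintro _ ⟨s, -, rfl⟩; exact hP s) (A := (Dx : Divisor Qb _))
    (Divisor.mem_degZero.mp Dx.2) (by
      rintro _ ⟨s, hs, rfl⟩
      exact (lin_smul_iff _).mp (hJ s hs))
  have hD0 : Divisor.degree D = 0 := by
    obtain ⟨f, hf⟩ := hD
    obtain ⟨-, h3⟩ := isDiv_iff.1 hf
    have h4 : D = (Dx : Divisor Qb (modularFunctionFieldFullC Qb (N * p))) + divOf f := by
      rw [← h3]; abel
    rw [h4, map_add, degree_divOf, add_zero]
    exact Divisor.mem_degZero.mp Dx.2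
  let D' : Divisor.degZero (K := Qb) (F := modularFunctionFieldFullC Qb (N * p)) := ⟨D, hD0⟩
  have eD : Pic0.mk Dx = Pic0.mk D' := mk_eq_mk_iff.mpr hD.symm
  rw [eD] at hpx hwx hαx hsx hJ hind ⊢
  obtain ⟨fe, hfe⟩ := exists_isDiv_of_nsmul hpe
  obtain ⟨f, hf⟩ := exists_isDiv_of_nsmul hpx
  have hpush : ∀ B : Divisor.degZero (K := Qb) (F := modularFunctionFieldFullC Qb (N * p)),
      pushPic (alpha1 Qb N p) (SemilinearAut.ofAlgAut (ww Qb N p hpN) • Pic0.mk B) = 0 →
      Lin (Degen.push (alpha1 Qb N p) (SemilinearAut.ofAlgAut (ww Qb N p hpN) •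
        (B : Divisor Qb (modularFunctionFieldFullC Qb (N * p))))) 0 := by
    intro B hB
    have h3 : SemilinearAut.ofAlgAut (ww Qb N p hpN) • Pic0.mk B =
      Pic0.mk (SemilinearAut.degZeroSMulHom (SemilinearAut.ofAlgAut (ww Qb N p hpN)) B) := rfl
    rw [h3, pushPic_mk, LLv.mk_eq_zero_iff] at hB
    obtain ⟨g, hg'⟩ := hB
    exact ⟨g, by rw [sub_zero]; exact hg'⟩
  have hpush' : ∀ B : Divisor.degZero (K := Qb) (F := modularFunctionFieldFullC Qb (N * p)),
      pushPic (alpha1 Qb N p) (SemilinearAut.ofAlgAut (ww Qb N p hpN) • Pic0.mk B) = 0 →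
      Lin (Degen.push (alpha1 Qb (N * 4) p) (SemilinearAut.ofAlgAut (ww Qb (N * 4) p hpN4) •
        pull δ (B : Divisor Qb (modularFunctionFieldFullC Qb (N * p))))) 0 := by
    intro B hB
    rw [hPa, hPb]
    have h3 := lin_pull (alpha1 Qb N 4) (hpush B hB)
    rwa [map_zero] at h3
  have hsg : ∀ B : Divisor Qb (modularFunctionFieldFullC Qb (N * p)),
      Sg (SemilinearAut.ofAlgAut (ww Qb N p hpN) • B) B →
      Sg (SemilinearAut.ofAlgAut (ww Qb (N * 4) p hpN4) • pull δ B) (pull δ B) := by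
    intro B hB
    rw [hPa]
    exact sg_pull δ hB
  have hpd : ∀ {B : Divisor Qb (modularFunctionFieldFullC Qb (N * p))}
      {g : modularFunctionFieldFullC Qb (N * p)}, IsDiv (p • B) g →
      IsDiv (p • pull δ B) (δ g) := by
    intro B g h3
    rw [← map_nsmul]
    exact isDiv_pull δ h3
  obtain ⟨f', hf', fb', hfb0, ⟨hfO, hfr⟩, hnp, j₀, h3, h4⟩ := LK3.core₂ A π hπ harch (N * 4) p hpN4
    hg d hd hp2 hζ hA K (hpd hfe) (hpd hf) (hsg _ (sg_of_smul hε hwe)) (hsg _ (sg_of_smul hε hwx))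
    (hpush' _ hαe) (hpush' _ hαx)
    (fun s hs k hk g hg' => by
      rw [hPc' s g hg']
      have h5 := hse s hs k hk
      have h6 : k • Pic0.mk De = Pic0.mk (k • De) := rfl
      rw [h6, lin_smul_iff] at h5
      have h7 := lin_pull δ h5
      rwa [show ((k • De : Divisor.degZero (K := Qb)
        (F := modularFunctionFieldFullC Qb (N * p))) : Divisor Qb _) =
        k • (De : Divisor Qb (modularFunctionFieldFullC Qb (N * p))) from rfl, map_nsmul] at h7)
    (fun s hs g hg' => by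
      rw [hPc' s g hg']
      obtain ⟨b, h5⟩ := hsx s hs
      have h6 : Pic0.mk D' + b • Pic0.mk De = Pic0.mk (D' + b • De) := rfl
      rw [h6, lin_smul_iff] at h5
      have h7 := lin_pull δ h5
      rw [show ((D' + b • De : Divisor.degZero (K := Qb)
        (F := modularFunctionFieldFullC Qb (N * p))) : Divisor Qb _) =
        (D' : Divisor Qb (modularFunctionFieldFullC Qb (N * p))) +
          b • (De : Divisor Qb (modularFunctionFieldFullC Qb (N * p))) from rfl,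
          map_add, map_nsmul] at h7
      exact ⟨b, h7⟩)
    (fun s hs g hg' => by
      rw [hPc' s g hg']
      exact congrArg (pull δ) (hDJ _ ⟨s, hs, rfl⟩))
    (fun a b h5 => hind a b (by
      rw [pullPic_mk, pullPic_mk]
      exact (lin_zsmul_iff a b).mpr h5)) U
  -- back to level `N p`
  obtain ⟨c, hc, hcf⟩ := isDiv_eq_const (hpd hf) hf'
  set f₁ : modularFunctionFieldFullC Qb (N * p) := algebraMap Qb _ c * f with hf₁
  have e1 : δ f₁ = f' := by
    rw [hf₁, map_mul, hcf, AlgHom.commutes]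
  have hD₁ : IsDiv (p • (D' : Divisor Qb (modularFunctionFieldFullC Qb (N * p)))) f₁ := by
    have h5 := (IsDiv.const (F := modularFunctionFieldFullC Qb (N * p)) hc).mul hf
    rwa [zero_add] at h5
  have e2 : (f₁ : LaurentSeries Qb) = f' := by rw [← e1, hδ]
  have hf₁O : (f₁ : LaurentSeries Qb) ∈ gaussRing A π := by
    rw [e2]
    exact hfO
  obtain ⟨fb, hfb⟩ := exists_res A π hπ harch N p hpN hf₁O
  have e3 : φ fb = fb' := by
    refine Subtype.ext ?_
    rw [hφ, hfb]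
    have h5 := congrArg Subtype.val hfr
    refine Eq.trans ?_ h5
    exact gaussRes_congr e2
  subst e3
  refine ⟨D', rfl, f₁, hf₁O, ?_, fb, ?_, hfb, ?_, j₀, h3, h4⟩
  · rw [← (isDiv_iff.1 hD₁).2, natCast_zsmul]
  · rintro rfl
    exact hfb0 (map_zero φ)
  · rintro c b rfl
    exact hnp c (φ b) (by rw [map_smul, map_pow])

end Fermat.Agent.LD1
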