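import Fermat.Agent.LD1.CoreE
import Fermat.Agent.LD6.MainJ
import Fermat.Agent.LD8.Main

/-!
# The core theorem over `ℚ̄` for every odd prime `p`
-/

set_option autoImplicit false
set_option linter.unusedSectionVars false
set_option maxHeartbeats 1000000

noncomputable section

open AlgebraicCurve Module IntermediateField ModularCurve HahnSeries

attribute [-instance] Fermat.Agent.X0Places.ffField Fermat.Agent.X0Places.ffAlgebra

namespace Fermat.Agent.LD1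

open Fermat.Agent.BadRed Fermat.Agent.LLp Fermat.Agent.LLu Fermat.Agent.LLc Fermat.Agent.LLv
open Fermat.Agent.Degen Fermat.Agent.TorsCmp
open Fermat.Agent.FunField Fermat.Agent.FunField.PlaceLemmas Fermat.Agent.Deuring
open Fermat.Agent.Igusa Fermat.Agent.AtkinLehner Fermat.Agent.HeckeRed
open Fermat.Agent.MzCusp (uL uL_ne_zero)
open Fermat.Agent.ZLoc2 (IsCoef IsAL)
open Fermat.Agent.LK3 (UnitDat)
open Fermat.Agent.LD8 (HypA HypW)

local notation "Qb" => AlgebraicClosure ℚ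
local notation "GQ" => (AlgebraicClosure ℚ ≃ₐ[ℚ] AlgebraicClosure ℚ)

variable {κ : Type*} [Field κ] [IsAlgClosed κ]
  (A : ValuationSubring Qb) (π : A →+* κ) [IsLocalHom π] (hπ : Function.Surjective π)
  (harch : ArchA π)
  (N p : ℕ) [hp : Fact p.Prime] [hN : NeZero N] [CharP κ p] (hpN : ¬ p ∣ N)

variable [NeZero (N * p)] (hpN4 : ¬ p ∣ N * 4)
  (hg : genusFF κ (modularFunctionFieldFullC κ (N * 4)) =
    genusFF Qb (modularFunctionFieldFullC Qb (N * 4)))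
  (d : CP.DecAut A π) (hd : CP.IsFrob d p)

include hπ harch hpN hg hd in
/-- **The core theorem over `ℚ̄`.** -/
theorem core_J₂ (hp2 : p ≠ 2) (hA : A.LiesOverPrime p)
    {v0 : modularFunctionFieldFullC Qb (N * 4 * p)} {vb b₂ : modularFunctionFieldFullC κ (N * 4)}
    {s : ℕ} (U : UnitDat A π hπ harch (N * 4) p hpN4 hg d hd v0 vb b₂ s)
    (φ : modularFunctionFieldFullC κ N →ₐ[κ] modularFunctionFieldFullC κ (N * 4))
    (hφ : ∀ x, (φ x : LaurentSeries κ) = x)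
    (h6 : ∀ ub : modularFunctionFieldFullC κ N, (ub : LaurentSeries κ) = uL κ p →
      ∀ v : Place κ (modularFunctionFieldFullC κ (N * 4)),
        0 ≤ v.ord (HeckeRed.jF κ (N * 4)) → v.ord (φ ub) = 6 * v.ord vb)
    (hvb : ∀ v : Place κ (modularFunctionFieldFullC κ (N * 4)),
      0 ≤ v.ord (HeckeRed.jF κ (N * 4)) → v.ord vb = 0 ∨ (1 ≤ v.ord vb ∧ v.ord vb ≤ 2))
    (hdeg : finrankAlong κ φ = 4 ∨ finrankAlong κ φ = 6)
    (hAA : p = 3 → finrankAlong κ φ = 6 → HypA κ N) (hW : p = 3 → HypW κ N)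
    {E₄ : IntermediateField Qb (LaurentSeries Qb)} [IsFF Qb E₄]
    (hE₄ : E₄ = modularFunctionFieldFullC Qb (N * 4 * p))
    (δ : modularFunctionFieldBar (N * p) →ₐ[Qb] E₄) (hδ : ∀ x, (δ x : LaurentSeries Qb) = x) :
    LD6.CoreJ₂ κ A N p δ := by
  intro ζ hζ J₀ β H hex ce cx hpe hpx ε hε hwe hwx hαe hαx hse hsx hJ hind S hpS hS a hT
  have hζA : ζ ∈ A := BadRed.mem_of_pow_eq_one hp.out.ne_zero hζ.pow_eq_one
  obtain ⟨P, hP⟩ := exists_rational_place (N * p)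
  have hub : uL κ p ∈ modularFunctionFieldFullC κ N := uL_mem_full_res iotaQbar A π hπ harch N p hpN
  have hgal : ∀ σ : GQ, IsCoef (arithmeticGalois (modularFunctionFieldFull (N * p)) σ)
    (σ : Qb →+* Qb) := fun σ x => coe_arithmeticGalois_smul _ σ x
  obtain ⟨D, hD, f, hf, hfD, fb, hfb0, hfb, hnp, j₀, h3, h4⟩ := core_E₂ A π hπ harch N p hpN hpN4
    hg d hd hp2 (ζ := ⟨ζ, hζA⟩) hζ hA H (HeckeRed.laurentBaseChange_full Qb N)
    (HeckeRed.laurentBaseChange_full Qb (N * p)) hE₄ δ hδ (heckeAlphaBar Qb N p)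
    (coe_heckeAlphaBar N p)
    (ZAL.wF iotaQbar hex) (ZLoc2.isAL_wF iotaQbar N p hpN hex)
    (fun σ => arithmeticGalois (modularFunctionFieldFull (N * p)) σ) hgal hP
    hpe hpx hε hwe hwx hαe hαx hse hsx hJ hind U φ hφ
  subst hD
  exact LD8.efin₂ A π hπ harch N p hpN hp2 (HeckeRed.laurentBaseChange_full Qb (N * p)) hf hfD fb
    ⟨uL κ p, hub⟩ hfb hfb0 hnp rfl φ hφ vb h3 h4 (h6 _ rfl) hvb hdeg hAA hW S hpS hS a
    (fun ℓ hℓ hℓS => haveI : NeZero ℓ := ⟨hℓ.ne_zero⟩; exists_hecke_rel hℓ (hT ℓ hℓ hℓS))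

end Fermat.Agent.LD1
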