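import Fermat.Agent.LD1.All
import Fermat.Agent.LA8.Two

/-!
# The core theorem for all data: final form
-/

set_option autoImplicit false

noncomputable section

namespace Fermat.Agent.LD1

theorem coreAll : LD6.CoreAll := coreAll_of fun h2 h3 => LA8.hypA1 _ h2 h3

theorem mainJ2 : LF3.MainJ2 := LD6.mainJ2_of coreAll LD6.degAll

end Fermat.Agent.LD1
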